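import Mathlib.AlgebraicGeometry.EllipticCurve.Affine.AddSubMap
import Mathlib.Tactic
import Fermat.Agent.S05.XId

/-!
# S52, piece (A2a-point): validity of Mathlib's `addSubMap` on points

For nonsingular points `P`, `Q` of a Weierstrass curve over a field, the vector
`addSubMap W (P.sym2x Q)` is a nonzero multiple of `(P + Q).sym2x (P - Q)`, i.e.
`(x(P)x(Q) : x(P)+x(Q) : 1) ↦ (x(P+Q)x(P-Q) : x(P+Q)+x(P-Q) : 1)` (all degenerate cases
included).  This is the TODO of `Mathlib.AlgebraicGeometry.EllipticCurve.Affine.AddSubMap`.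
-/

set_option autoImplicit false
set_option linter.unusedSectionVars false

namespace Fermat.Agent.S52.H309

open WeierstrassCurve WeierstrassCurve.Affine MvPolynomial
open Fermat.Agent.S05

section Eval

variable {R : Type*} [CommRing R] (W : WeierstrassCurve R)

lemma eval_addSubMap_zero (v : Fin 3 → R) :
    (addSubMap W 0).eval v =
      v 0 ^ 2 - W.b₄ * v 0 * v 2 - W.b₆ * v 1 * v 2 - W.b₈ * v 2 ^ 2 := by
  simp [addSubMap]

lemma eval_addSubMap_one (v : Fin 3 → R) :
    (addSubMap W 1).eval v =
      2 * v 1 * v 0 + W.b₂ * v 0 * v 2 + W.b₄ * v 1 * v 2 + W.b₆ * v 2 ^ 2 := by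
  simp [addSubMap]

lemma eval_addSubMap_two (v : Fin 3 → R) :
    (addSubMap W 2).eval v = v 1 ^ 2 - 4 * v 0 * v 2 := by
  simp [addSubMap]

/-- The vector of values of `addSubMap`. -/
noncomputable def addSubVec (v : Fin 3 → R) : Fin 3 → R := fun i => (addSubMap W i).eval v

lemma addSubVec_eq (v : Fin 3 → R) :
    addSubVec W v =
      ![v 0 ^ 2 - W.b₄ * v 0 * v 2 - W.b₆ * v 1 * v 2 - W.b₈ * v 2 ^ 2,
        2 * v 1 * v 0 + W.b₂ * v 0 * v 2 + W.b₄ * v 1 * v 2 + W.b₆ * v 2 ^ 2,
        v 1 ^ 2 - 4 * v 0 * v 2] := by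
  funext i
  fin_cases i
  · exact eval_addSubMap_zero W v
  · exact eval_addSubMap_one W v
  · exact eval_addSubMap_two W v

end Eval

variable {F : Type*} [Field F] [DecidableEq F] {W : Affine F}

/-- At a nonsingular point with `y = negY x y` (a 2-torsion point), the numerator of the
duplication formula is the square of the nonzero partial derivative. -/
lemma dblNum_eq_sq_of_Y_eq {x y : F} (h : W.Equation x y) (hy : y = W.negY x y) :
    XId.dblNum W x = (W.a₁ * y - (3 * x ^ 2 + 2 * W.a₂ * x + W.a₄)) ^ 2 := by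
  have hη : 2 * y + W.a₁ * x + W.a₃ = 0 := by
    have : y - W.negY x y = 0 := sub_eq_zero.mpr hy
    simp only [negY] at this
    linear_combination this
  rw [Affine.equation_iff] at h
  simp only [XId.dblNum, WeierstrassCurve.b₄, WeierstrassCurve.b₆, WeierstrassCurve.b₈]
  linear_combination (8 * x + W.a₁ ^ 2 + 4 * W.a₂) * h -
    (W.a₁ * (W.a₁ * y - (3 * x ^ 2 + 2 * W.a₂ * x + W.a₄)) +
      (W.a₂ + 2 * x) * (2 * y + W.a₁ * x + W.a₃)) * hη

lemma dblNum_ne_zero_of_Y_eq {x y : F} (h : W.Nonsingular x y) (hy : y = W.negY x y) :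
    XId.dblNum W x ≠ 0 := by
  rw [dblNum_eq_sq_of_Y_eq h.1 hy]
  apply pow_ne_zero
  have hη : 2 * y + W.a₁ * x + W.a₃ = 0 := by
    have : y - W.negY x y = 0 := sub_eq_zero.mpr hy
    simp only [negY] at this
    linear_combination this
  rcases (Affine.nonsingular_iff' x y).mp h with ⟨_, h1 | h1⟩
  · exact h1
  · exact absurd hη h1

/-- The doubling case: `addSubVec (x², 2x, 1)` is a nonzero multiple of `sym2x (2P) 0`. -/
lemma addSubVec_self {x y : F} (h : W.Nonsingular x y) :
    ∃ c : F, c ≠ 0 ∧ addSubVec W ![x * x, x + x, 1] =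
      c • (Point.some x y h + Point.some x y h).sym2x 0 := by
  by_cases hy : y = W.negY x y
  · refine ⟨XId.dblNum W x, dblNum_ne_zero_of_Y_eq h hy, ?_⟩
    rw [Point.add_self_of_Y_eq hy, Point.sym2x_zero_zero, addSubVec_eq]
    have hd := XId.dblDen_eq_zero_of_Y_eq h.1 hy
    simp only [XId.dblDen] at hd
    funext i
    fin_cases i
    · simp [XId.dblNum]; ring
    · simp; linear_combination hd
    · simp; ring
  · obtain ⟨x', y', h', hadd, hdup, hden⟩ := XId.add_self_some h hy
    refine ⟨XId.dblDen W x, hden, ?_⟩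
    rw [hadd, Point.sym2x_some_zero, addSubVec_eq]
    simp only [XId.dblDen, XId.dblNum] at hdup ⊢
    funext i
    fin_cases i
    · simp; linear_combination -hdup
    · simp; ring
    · simp; ring

/-- **Validity of `addSubMap`.** For all points `P`, `Q`, the image of `P.sym2x Q` under
`addSubMap` is a nonzero multiple of `(P + Q).sym2x (P - Q)`. -/
theorem addSubVec_sym2x (P Q : W.Point) :
    ∃ c : F, c ≠ 0 ∧ addSubVec W (P.sym2x Q) = c • (P + Q).sym2x (P - Q) := by
  cases P with
  | zero =>
    cases Q with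
    | zero =>
      refine ⟨1, one_ne_zero, ?_⟩
      have e : (Point.zero : W.Point) = 0 := rfl
      rw [e, add_zero, sub_zero, Point.sym2x_zero_zero, addSubVec_eq, one_smul]
      funext i
      fin_cases i <;> simp
    | some x y h =>
      refine ⟨1, one_ne_zero, ?_⟩
      have e : (Point.zero : W.Point) = 0 := rfl
      rw [e, zero_add, zero_sub, Point.sym2x_neg_right, Point.sym2x_zero_some,
        Point.sym2x_some_some, addSubVec_eq, one_smul]
      funext i
      fin_cases i <;> simp <;> ring
  | some x₁ y₁ h₁ =>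
    cases Q with
    | zero =>
      refine ⟨1, one_ne_zero, ?_⟩
      have e : (Point.zero : W.Point) = 0 := rfl
      rw [e, add_zero, sub_zero, Point.sym2x_some_zero, Point.sym2x_some_some, addSubVec_eq,
        one_smul]
      funext i
      fin_cases i <;> simp <;> ring
    | some x₂ y₂ h₂ =>
      rw [Point.sym2x_some_some]
      by_cases hx : x₁ = x₂
      · subst hx
        rcases Affine.Y_eq_of_X_eq h₁.1 h₂.1 rfl with hy | hy
        · -- `P = Q`
          subst hy
          rw [sub_self]
          exact addSubVec_self h₁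
        · -- `P = -Q`
          have hPQ : Point.some x₁ y₁ h₁ = -Point.some x₁ y₂ h₂ := by
            rw [Point.neg_some]; congr
          obtain ⟨c, hc, hcv⟩ := addSubVec_self h₁
          refine ⟨c, hc, ?_⟩
          rw [hcv]
          have e1 : Point.some x₁ y₁ h₁ + Point.some x₁ y₂ h₂ = 0 := by
            rw [hPQ, neg_add_cancel]
          have e2 : Point.some x₁ y₁ h₁ - Point.some x₁ y₂ h₂ =
              Point.some x₁ y₁ h₁ + Point.some x₁ y₁ h₁ := by
            rw [sub_eq_add_neg, ← hPQ]
          rw [e1, e2, Point.sym2x_comm]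
      · obtain ⟨x₃, y₃, x₄, y₄, h₃, h₄, hadd, hsub, hsum, hprod⟩ := XId.add_sub_some h₁ h₂ hx
        refine ⟨(x₁ - x₂) ^ 2, pow_ne_zero 2 (sub_ne_zero.mpr hx), ?_⟩
        rw [hadd, hsub, Point.sym2x_some_some, addSubVec_eq]
        simp only [XId.sumNum, XId.prodNum] at hsum hprod
        funext i
        fin_cases i
        · simp; linear_combination -hprod
        · simp; linear_combination -hsum
        · simp; ring

end Fermat.Agent.S52.H309
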