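import Mathlib.AlgebraicGeometry.EllipticCurve.Affine.Point
import Mathlib.Tactic

/-!
# S52, piece (A3): an admissible change of variables induces a group isomorphism on points

For a Weierstrass curve `W` over a field `F` and `C : VariableChange F`, the map
`(X, Y) ↦ (u²X + r, u³Y + u²sX + t)` is an isomorphism of groups
`(C • W).toAffine.Point ≃+ W.toAffine.Point`.
-/

set_option autoImplicit false
set_option linter.unusedSectionVars false

namespace Fermat.Agent.S52.H309.VC

open WeierstrassCurve WeierstrassCurve.Affine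

variable {F : Type*} [Field F] (W : WeierstrassCurve F) (C : VariableChange F)

/-- `X ↦ u²X + r`. -/
def fx (X : F) : F := (C.u : F) ^ 2 * X + C.r

/-- `(X, Y) ↦ u³Y + u²sX + t`. -/
def fy (X Y : F) : F := (C.u : F) ^ 3 * Y + (C.u : F) ^ 2 * C.s * X + C.t

lemma u_ne_zero : (C.u : F) ≠ 0 := C.u.ne_zero

lemma fx_injective : Function.Injective (fx C) := by
  intro X X' h
  have hu := u_ne_zero C
  simp only [fx] at h
  have h2 : (C.u : F) ^ 2 * X = (C.u : F) ^ 2 * X' := by linear_combination h
  exact mul_left_cancel₀ (pow_ne_zero 2 hu) h2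

lemma fy_injective (X : F) : Function.Injective (fy C X) := by
  intro Y Y' h
  have hu := u_ne_zero C
  simp only [fy] at h
  have h2 : (C.u : F) ^ 3 * Y = (C.u : F) ^ 3 * Y' := by linear_combination h
  exact mul_left_cancel₀ (pow_ne_zero 3 hu) h2

lemma equation_iff (X Y : F) :
    (C • W).toAffine.Equation X Y ↔ W.toAffine.Equation (fx C X) (fy C X Y) := by
  have hu := u_ne_zero C
  rw [Affine.equation_iff, Affine.equation_iff]
  simp only [variableChange_a₁, variableChange_a₂, variableChange_a₃, variableChange_a₄,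
    variableChange_a₆, Units.val_inv_eq_inv_val, fx, fy]
  constructor
  · intro h
    field_simp at h
    linear_combination h
  · intro h
    field_simp
    linear_combination h

lemma polyY_eq (X Y : F) :
    2 * fy C X Y + W.a₁ * fx C X + W.a₃ =
      (C.u : F) ^ 3 * (2 * Y + (C • W).a₁ * X + (C • W).a₃) := by
  have hu := u_ne_zero C
  simp only [variableChange_a₁, variableChange_a₃, Units.val_inv_eq_inv_val, fx, fy]
  field_simp
  ring

lemma polyX_eq (X Y : F) :
    W.a₁ * fy C X Y - (3 * fx C X ^ 2 + 2 * W.a₂ * fx C X + W.a₄) =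
      (C.u : F) ^ 4 * ((C • W).a₁ * Y - (3 * X ^ 2 + 2 * (C • W).a₂ * X + (C • W).a₄)) -
        C.s * ((C.u : F) ^ 3 * (2 * Y + (C • W).a₁ * X + (C • W).a₃)) := by
  have hu := u_ne_zero C
  simp only [variableChange_a₁, variableChange_a₂, variableChange_a₃, variableChange_a₄,
    Units.val_inv_eq_inv_val, fx, fy]
  field_simp
  ring

lemma nonsingular_iff (X Y : F) :
    (C • W).toAffine.Nonsingular X Y ↔ W.toAffine.Nonsingular (fx C X) (fy C X Y) := by
  have hu := u_ne_zero C
  rw [Affine.nonsingular_iff', Affine.nonsingular_iff', ← equation_iff]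
  refine and_congr_right fun _ => ?_
  have hY := polyY_eq W C X Y
  have hX := polyX_eq W C X Y
  have hu3 : (C.u : F) ^ 3 ≠ 0 := pow_ne_zero 3 hu
  have hu4 : (C.u : F) ^ 4 ≠ 0 := pow_ne_zero 4 hu
  constructor
  · rintro (h | h)
    · by_cases h' : 2 * Y + (C • W).a₁ * X + (C • W).a₃ = 0
      · left
        show W.a₁ * fy C X Y - (3 * fx C X ^ 2 + 2 * W.a₂ * fx C X + W.a₄) ≠ 0
        rw [hX, h', mul_zero, mul_zero, sub_zero]
        exact mul_ne_zero hu4 h
      · right
        show 2 * fy C X Y + W.a₁ * fx C X + W.a₃ ≠ 0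
        rw [hY]; exact mul_ne_zero hu3 h'
    · right
      show 2 * fy C X Y + W.a₁ * fx C X + W.a₃ ≠ 0
      rw [hY]; exact mul_ne_zero hu3 h
  · rintro (h | h)
    · by_cases h' : 2 * Y + (C • W).a₁ * X + (C • W).a₃ = 0
      · left
        intro h0
        apply h
        show W.a₁ * fy C X Y - (3 * fx C X ^ 2 + 2 * W.a₂ * fx C X + W.a₄) = 0
        rw [hX, h', mul_zero, mul_zero, sub_zero]
        show (C.u : F) ^ 4 * ((C • W).a₁ * Y - (3 * X ^ 2 + 2 * (C • W).a₂ * X + (C • W).a₄)) = 0
        rw [h0, mul_zero]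
      · exact Or.inr h'
    · right
      intro h0
      apply h
      show 2 * fy C X Y + W.a₁ * fx C X + W.a₃ = 0
      rw [hY]
      show (C.u : F) ^ 3 * (2 * Y + (C • W).a₁ * X + (C • W).a₃) = 0
      rw [h0, mul_zero]

lemma negY_eq (X Y : F) :
    W.toAffine.negY (fx C X) (fy C X Y) = fy C X ((C • W).toAffine.negY X Y) := by
  have hu := u_ne_zero C
  simp only [negY, variableChange_a₁, variableChange_a₃, Units.val_inv_eq_inv_val, fx, fy]
  field_simp
  ring

lemma addX_eq (X₁ X₂ L : F) :
    W.toAffine.addX (fx C X₁) (fx C X₂) ((C.u : F) * L + C.s) =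
      fx C ((C • W).toAffine.addX X₁ X₂ L) := by
  have hu := u_ne_zero C
  simp only [addX, variableChange_a₁, variableChange_a₂, Units.val_inv_eq_inv_val, fx]
  field_simp
  ring

lemma negAddY_eq (X₁ X₂ Y₁ L : F) :
    W.toAffine.negAddY (fx C X₁) (fx C X₂) (fy C X₁ Y₁) ((C.u : F) * L + C.s) =
      fy C ((C • W).toAffine.addX X₁ X₂ L) ((C • W).toAffine.negAddY X₁ X₂ Y₁ L) := by
  have hu := u_ne_zero C
  simp only [negAddY, addX_eq]
  simp only [addX, variableChange_a₁, variableChange_a₂, Units.val_inv_eq_inv_val, fx, fy]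
  field_simp
  ring

lemma addY_eq (X₁ X₂ Y₁ L : F) :
    W.toAffine.addY (fx C X₁) (fx C X₂) (fy C X₁ Y₁) ((C.u : F) * L + C.s) =
      fy C ((C • W).toAffine.addX X₁ X₂ L) ((C • W).toAffine.addY X₁ X₂ Y₁ L) := by
  simp only [addY, negAddY_eq, addX_eq, negY_eq]

variable [DecidableEq F]

lemma slope_eq {X₁ X₂ Y₁ Y₂ : F} (h₁ : (C • W).toAffine.Equation X₁ Y₁)
    (h₂ : (C • W).toAffine.Equation X₂ Y₂)
    (hxy : ¬(X₁ = X₂ ∧ Y₁ = (C • W).toAffine.negY X₂ Y₂)) :
    W.toAffine.slope (fx C X₁) (fx C X₂) (fy C X₁ Y₁) (fy C X₂ Y₂) =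
      (C.u : F) * (C • W).toAffine.slope X₁ X₂ Y₁ Y₂ + C.s := by
  have hu := u_ne_zero C
  by_cases hx : X₁ = X₂
  · subst hx
    have hy : Y₁ ≠ (C • W).toAffine.negY X₁ Y₂ := fun h => hxy ⟨rfl, h⟩
    have hy' : fy C X₁ Y₁ ≠ W.toAffine.negY (fx C X₁) (fy C X₁ Y₂) := by
      rw [negY_eq]; exact fun h => hy (fy_injective C X₁ h)
    rw [slope_of_Y_ne rfl hy', slope_of_Y_ne rfl hy]
    have hYY : Y₁ = Y₂ := (Affine.Y_eq_of_X_eq h₁ h₂ rfl).resolve_right hy
    subst hYY
    have hd : Y₁ - (C • W).toAffine.negY X₁ Y₁ ≠ 0 := sub_ne_zero.mpr hy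
    have hd' : fy C X₁ Y₁ - W.toAffine.negY (fx C X₁) (fy C X₁ Y₁) ≠ 0 := sub_ne_zero.mpr hy'
    have e1 : fy C X₁ Y₁ - W.toAffine.negY (fx C X₁) (fy C X₁ Y₁) =
        (C.u : F) ^ 3 * (Y₁ - (C • W).toAffine.negY X₁ Y₁) := by
      have := polyY_eq W C X₁ Y₁
      simp only [negY] at this ⊢
      linear_combination this
    have e2 : 3 * fx C X₁ ^ 2 + 2 * W.a₂ * fx C X₁ + W.a₄ - W.a₁ * fy C X₁ Y₁ =
        (C.u : F) ^ 4 * (3 * X₁ ^ 2 + 2 * (C • W).a₂ * X₁ + (C • W).a₄ - (C • W).a₁ * Y₁) +
          C.s * ((C.u : F) ^ 3 * (Y₁ - (C • W).toAffine.negY X₁ Y₁)) := by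
      have := polyX_eq W C X₁ Y₁
      simp only [negY] at this ⊢
      linear_combination -this
    rw [div_eq_iff hd', e2, e1]
    field_simp
  · have hx' : fx C X₁ ≠ fx C X₂ := fun h => hx (fx_injective C h)
    rw [slope_of_X_ne hx', slope_of_X_ne hx]
    have hd : X₁ - X₂ ≠ 0 := sub_ne_zero.mpr hx
    have hd' : fx C X₁ - fx C X₂ ≠ 0 := sub_ne_zero.mpr hx'
    rw [div_eq_iff hd']
    simp only [fx, fy]
    field_simp
    ring

variable {W C}

/-- The map on points induced by the change of variables. -/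
def toFun : (C • W).toAffine.Point → W.toAffine.Point
  | .zero => 0
  | .some X Y h => .some (fx C X) (fy C X Y) ((nonsingular_iff W C X Y).mp h)

@[simp] lemma toFun_zero : toFun (0 : (C • W).toAffine.Point) = 0 := rfl

@[simp] lemma toFun_some {X Y : F} (h : (C • W).toAffine.Nonsingular X Y) :
    toFun (Point.some X Y h) = Point.some (fx C X) (fy C X Y) ((nonsingular_iff W C X Y).mp h) :=
  rfl

lemma toFun_add (P Q : (C • W).toAffine.Point) : toFun (P + Q) = toFun P + toFun Q := by
  rcases P with _ | ⟨X₁, Y₁, h₁⟩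
  · have e : (Point.zero : (C • W).toAffine.Point) = 0 := rfl
    rw [e, zero_add, toFun_zero, zero_add]
  rcases Q with _ | ⟨X₂, Y₂, h₂⟩
  · have e : (Point.zero : (C • W).toAffine.Point) = 0 := rfl
    rw [e, add_zero, toFun_zero, add_zero]
  by_cases hxy : X₁ = X₂ ∧ Y₁ = (C • W).toAffine.negY X₂ Y₂
  · rw [Point.add_of_Y_eq hxy.1 hxy.2, toFun_zero, toFun_some, toFun_some,
      Point.add_of_Y_eq (congrArg (fx C) hxy.1) (by rw [negY_eq, hxy.1, hxy.2])]
  · have hxy' : ¬(fx C X₁ = fx C X₂ ∧ fy C X₁ Y₁ = W.toAffine.negY (fx C X₂) (fy C X₂ Y₂)) := by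
      rintro ⟨hx, hy⟩
      have hx' := fx_injective C hx
      subst hx'
      rw [negY_eq] at hy
      exact hxy ⟨rfl, fy_injective C X₁ hy⟩
    rw [Point.add_some hxy, toFun_some, toFun_some, toFun_some, Point.add_some hxy']
    simp only [slope_eq W C h₁.1 h₂.1 hxy, addX_eq, addY_eq]

/-- The group homomorphism on points induced by the change of variables. -/
def hom : (C • W).toAffine.Point →+ W.toAffine.Point where
  toFun := toFun
  map_zero' := rfl
  map_add' := toFun_add

@[simp] lemma hom_zero : hom (0 : (C • W).toAffine.Point) = 0 := rfl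

@[simp] lemma hom_some {X Y : F} (h : (C • W).toAffine.Nonsingular X Y) :
    hom (Point.some X Y h) = Point.some (fx C X) (fy C X Y) ((nonsingular_iff W C X Y).mp h) :=
  rfl

lemma hom_injective : Function.Injective (hom : (C • W).toAffine.Point →+ W.toAffine.Point) := by
  rintro (_ | ⟨X₁, Y₁, h₁⟩) (_ | ⟨X₂, Y₂, h₂⟩) h
  · rfl
  · exact absurd h (Point.some_ne_zero _).symm
  · exact absurd h (Point.some_ne_zero _)
  · have h' : Point.some (fx C X₁) (fy C X₁ Y₁) ((nonsingular_iff W C X₁ Y₁).mp h₁) =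
        Point.some (fx C X₂) (fy C X₂ Y₂) ((nonsingular_iff W C X₂ Y₂).mp h₂) := h
    rw [Point.some.injEq] at h'
    have hx := fx_injective C h'.1
    subst hx
    have hy := fy_injective C X₁ h'.2
    subst hy
    rfl

lemma hom_surjective : Function.Surjective (hom : (C • W).toAffine.Point →+ W.toAffine.Point) := by
  have hu := u_ne_zero C
  rintro (_ | ⟨x, y, h⟩)
  · exact ⟨0, rfl⟩
  · set X : F := ((C.u : F) ^ 2)⁻¹ * (x - C.r) with hX
    set Y : F := ((C.u : F) ^ 3)⁻¹ * (y - C.s * (x - C.r) - C.t) with hY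
    have ex : fx C X = x := by
      simp only [fx, hX]; field_simp; ring
    have ey : fy C X Y = y := by
      simp only [fy, hX, hY]; field_simp; ring
    have h' : (C • W).toAffine.Nonsingular X Y := by
      rw [nonsingular_iff, ex, ey]; exact h
    refine ⟨Point.some X Y h', ?_⟩
    rw [hom_some]
    congr

/-- **(A3)** The group isomorphism on points induced by an admissible change of variables. -/
noncomputable def equiv : (C • W).toAffine.Point ≃+ W.toAffine.Point :=
  AddEquiv.ofBijective hom ⟨hom_injective, hom_surjective⟩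

@[simp] lemma equiv_zero : equiv (0 : (C • W).toAffine.Point) = 0 := rfl

@[simp] lemma equiv_some {X Y : F} (h : (C • W).toAffine.Nonsingular X Y) :
    equiv (Point.some X Y h) =
      Point.some (fx C X) (fy C X Y) ((nonsingular_iff W C X Y).mp h) :=
  rfl

end Fermat.Agent.S52.H309.VC

namespace Fermat.Agent.S52.H309.VC

open WeierstrassCurve WeierstrassCurve.Affine

section Congr

variable {F : Type*} [Field F] [DecidableEq F]

/-- Transport of points along an equality of curves. -/
def pointCongr {W₁ W₂ : Affine F} (h : W₁ = W₂) : W₁.Point ≃+ W₂.Point :=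
  h ▸ AddEquiv.refl _

@[simp] lemma pointCongr_zero {W₁ W₂ : Affine F} (h : W₁ = W₂) :
    pointCongr h (0 : W₁.Point) = 0 := by
  subst h; rfl

@[simp] lemma pointCongr_some {W₁ W₂ : Affine F} (h : W₁ = W₂) {x y : F}
    (hxy : W₁.Nonsingular x y) :
    pointCongr h (Point.some x y hxy) = Point.some x y (h ▸ hxy) := by
  subst h; rfl

end Congr

section Card

variable {F : Type*} [Field F] (W : WeierstrassCurve F) (C : VariableChange F)

/-- A change of variables does not change the number of points. -/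
theorem card_variableChange :
    Nat.card (C • W).toAffine.Point = Nat.card W.toAffine.Point := by
  classical
  exact Nat.card_congr (equiv (W := W) (C := C)).toEquiv

end Card

section Base

variable {R : Type*} [CommRing R] (W₀ : WeierstrassCurve R) (C₀ : VariableChange R)
variable (K : Type*) [Field K] [DecidableEq K] [Algebra R K]

lemma baseChange_smul :
    ((C₀ • W₀)⁄K) = (C₀.baseChange K • W₀.baseChange K).toAffine :=
  (map_variableChange (φ := algebraMap R K) (W := W₀) (C := C₀)).symm

/-- **(A3), base-change form.** For a curve `W₀` and a change of variables `C₀` over a base ring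
`R`, and a field `K` over `R`: `((C₀ • W₀)⁄K).Point ≃+ (W₀⁄K).Point`. -/
noncomputable def equivBase : ((C₀ • W₀)⁄K).Point ≃+ (W₀⁄K).Point :=
  (pointCongr (baseChange_smul W₀ C₀ K)).trans
    (equiv (W := W₀.baseChange K) (C := C₀.baseChange K))

@[simp] lemma equivBase_zero : equivBase W₀ C₀ K 0 = 0 := by
  simp [equivBase]

lemma equivBase_some {X Y : K} (h : ((C₀ • W₀)⁄K).Nonsingular X Y) :
    ∃ h', equivBase W₀ C₀ K (Point.some X Y h) =
      Point.some (algebraMap R K (C₀.u : R) ^ 2 * X + algebraMap R K C₀.r)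
        (algebraMap R K (C₀.u : R) ^ 3 * Y + algebraMap R K (C₀.u : R) ^ 2 *
          algebraMap R K C₀.s * X + algebraMap R K C₀.t) h' := by
  refine ⟨?_, ?_⟩
  · have := (nonsingular_iff (W₀.baseChange K) (C₀.baseChange K) X Y).mp
      (baseChange_smul W₀ C₀ K ▸ h)
    exact this
  · simp only [equivBase, AddEquiv.trans_apply, pointCongr_some, equiv_some]
    rfl

end Base

section Equivariant

variable {R : Type*} [CommRing R] (W₀ : WeierstrassCurve R) (C₀ : VariableChange R)
variable {S : Type*} [CommRing S] [Algebra R S]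
variable {K : Type*} [Field K] [DecidableEq K] [Algebra R K] [Algebra S K] [IsScalarTower R S K]
variable {L : Type*} [Field L] [DecidableEq L] [Algebra R L] [Algebra S L] [IsScalarTower R S L]

/-- The isomorphism `equivBase` commutes with the maps on points induced by field homomorphisms
over the base (in particular with Galois actions). -/
theorem equivBase_map (f : K →ₐ[S] L) (P : ((C₀ • W₀)⁄K).Point) :
    equivBase W₀ C₀ L (Point.map f P) = Point.map f (equivBase W₀ C₀ K P) := by
  rcases P with _ | ⟨X, Y, h⟩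
  · have e : (Point.zero : ((C₀ • W₀)⁄K).Point) = 0 := rfl
    rw [e, Point.map_zero, equivBase_zero, equivBase_zero, Point.map_zero]
  · obtain ⟨h1, e1⟩ := equivBase_some W₀ C₀ K h
    rw [e1, Point.map_some, Point.map_some]
    obtain ⟨h2, e2⟩ := equivBase_some W₀ C₀ L
      ((Affine.baseChange_nonsingular (W := (C₀ • W₀).toAffine) f.injective X Y).mpr h)
    rw [e2]
    have hfa : ∀ r : R, f (algebraMap R K r) = algebraMap R L r := fun r => by
      rw [IsScalarTower.algebraMap_apply R S K, IsScalarTower.algebraMap_apply R S L,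
        AlgHom.commutes]
    congr 1
    · simp only [map_add, map_mul, map_pow, hfa]
    · simp only [map_add, map_mul, map_pow, hfa]

end Equivariant

end Fermat.Agent.S52.H309.VC
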